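import Mathlib
import Fermat.Agent.LT.CFT.SpecX
import Fermat.Agent.LT.T7.EK

/-!
# Row LT, tower T7, leaf T7.15 `SeedEKC` (helper96) -- OFF-MAIN

## The gap and the cut

`GoodEK` asks for a place `w₀` of degree one with `ρ(Frob) = -1` whose class in the ray class
group modulo `𝔑` has ODD order (`w₀ⁿ = (a₀)`, `a₀ ≡ 1 mod 𝔑`, `(-1)ⁿ ≠ 1`).  `𝔑` is arbitrary, so
the `2`-part of the ray class group has to be controlled by a Frobenius condition: this is the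
EXISTENCE direction of class field theory (ray class characters of `2`-power order are Galois
characters), NOT the reciprocity direction exported by the closed tower CFT (`ArtinRayC`,
`HeckeCharC`: Galois characters are ray characters).

The cut: ONE new Prop in the vocabulary of `LT/CFT/Spec.lean`, in bytes as
`Fermat.Agent.LT.CFT.OddRayChebC` (`LT/CFT/SpecX.lean` of helper53, sha256 4700ce4c6b919d55),

    OddRayChebC : for `K` totally complex, `j : K → ℚ̄`, `𝔑 ≠ 0`, `S` finite, `F/ℚ` finite and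
      `σ` in the COMMUTATOR subgroup of `G_K = galOf j`: there are a place `w₀ ∉ S`, `w₀ ∤ 𝔑`, of
      prime absolute norm, an ODD `n`, `a₀ ≡ 1 mod 𝔑` with `(a₀) = w₀ⁿ`, and a Frobenius element
      `φ` at `w₀` with `φ = σ` on `F`.

(TRUE: `σ` is trivial on the ray class field `H` of `K` modulo `𝔑`; Chebotarev over `ℚ` for the
Galois closure of `F H`; the prime under a Frobenius `σ ∈ G_K` has degree one; `n = 1`.)

PROVED here: `seedEKC_of96 : CFT.OddRayChebC → SqrtC → SeedEKC` and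
`midEKC_of96 : CFT.OddRayChebC → SqrtC → MidEKC` (both VERBATIM, `T7/EK.lean`).
The dictionary: `E ∋ √-3` is totally complex; `-1 = [i, j]` in `Q8`, lifts of `i`, `j` lie in
`G_E`; `ker ρ` is open; `Ψ(-1) = -1` (an involution of `GL₂(ℤ[√-2])` which reduces to `-1`), so
`a_{w₀} = -2`, `b_{w₀} = 1` and the Satake parameters are `(-1, -1)`.
-/

set_option autoImplicit false

open AutomorphicForm FLT.ExplicitLift
open IsDedekindDomain NumberField
open scoped MatrixGroups commutatorElement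

noncomputable section

namespace Fermat.Agent.LT.T7.H96

open Fermat.Agent.LT.H130 Fermat.Agent.LT.H556 Fermat.Agent.LT.T7

local notation "Γℚ" => (AlgebraicClosure ℚ ≃ₐ[ℚ] AlgebraicClosure ℚ)
local notation "Qb" => AlgebraicClosure ℚ

/-! ## 1. `Ψ(-1) = -1` -/

/-- `ℤ[√-2]` has no zero divisors. -/
theorem zsqrtd_mul_eq_zero96 {x y : ℤ√(-2)} (h : x * y = 0) : x = 0 ∨ y = 0 := by
  have hn : x.norm * y.norm = 0 := by
    rw [← Zsqrtd.norm_mul, h]
    simp [Zsqrtd.norm]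
  rcases mul_eq_zero.mp hn with h1 | h1
  · exact Or.inl ((Zsqrtd.norm_eq_zero_iff (by norm_num) x).mp h1)
  · exact Or.inr ((Zsqrtd.norm_eq_zero_iff (by norm_num) y).mp h1)

/-- An involution of `M₂(ℤ[√-2])` which reduces to `-1` modulo `3` has trace `-2`. -/
theorem trace_of_invol96 (M : Matrix (Fin 2) (Fin 2) (ℤ√(-2))) (hM : M * M = 1)
    (h00 : red (M 0 0) = -1) (h11 : red (M 1 1) = -1) : M.trace = -2 := by
  have e := hM
  rw [Matrix.eta_fin_two M, Matrix.mul_fin_two, Matrix.one_fin_two] at e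
  have e00 : M 0 0 * M 0 0 + M 0 1 * M 1 0 = 1 := by
    have := congrFun (congrFun e 0) 0
    simpa using this
  have e01 : M 0 0 * M 0 1 + M 0 1 * M 1 1 = 0 := by
    have := congrFun (congrFun e 0) 1
    simpa using this
  have e10 : M 1 0 * M 0 0 + M 1 1 * M 1 0 = 0 := by
    have := congrFun (congrFun e 1) 0
    simpa using this
  have ht : M 0 0 + M 1 1 ≠ 0 := by
    intro h
    have := congrArg red h
    rw [map_add, h00, h11, map_zero] at this
    revert this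
    decide
  have hb : M 0 1 = 0 := by
    have : M 0 1 * (M 0 0 + M 1 1) = 0 := by linear_combination e01
    exact (zsqrtd_mul_eq_zero96 this).resolve_right ht
  have hc : M 1 0 = 0 := by
    have : M 1 0 * (M 0 0 + M 1 1) = 0 := by linear_combination e10
    exact (zsqrtd_mul_eq_zero96 this).resolve_right ht
  have ha : M 0 0 = -1 := by
    have : (M 0 0 - 1) * (M 0 0 + 1) = 0 := by
      rw [hb] at e00
      linear_combination e00
    rcases zsqrtd_mul_eq_zero96 this with h | h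
    · exfalso
      have h1 : M 0 0 = 1 := by linear_combination h
      rw [h1, map_one] at h00
      revert h00
      decide
    · linear_combination h
  have e11 : M 1 0 * M 0 1 + M 1 1 * M 1 1 = 1 := by
    have := congrFun (congrFun e 1) 1
    simpa using this
  have hd : M 1 1 = -1 := by
    have : (M 1 1 - 1) * (M 1 1 + 1) = 0 := by
      rw [hb] at e11
      linear_combination e11
    rcases zsqrtd_mul_eq_zero96 this with h | h
    · exfalso
      have h1 : M 1 1 = 1 := by linear_combination h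
      rw [h1, map_one] at h11
      revert h11
      decide
    · linear_combination h
  rw [Matrix.trace_fin_two, ha, hd]
  norm_num

/-- `tr Ψ(-1) = -2` for a section `Ψ` of the reduction. -/
theorem trPsi_neg_one96 (Ψ : GL (Fin 2) (ZMod 3) →* GL (Fin 2) (ℤ√(-2))) (ι : ℤ√(-2) →+* ℂ)
    (hlift : ∀ g, Matrix.GeneralLinearGroup.map red (Ψ g) = g) :
    trΨ Ψ ι (-1) = -2 := by
  have hM : ((Ψ (-1) : GL (Fin 2) (ℤ√(-2))) : Matrix (Fin 2) (Fin 2) (ℤ√(-2))) *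
      ((Ψ (-1) : GL (Fin 2) (ℤ√(-2))) : Matrix (Fin 2) (Fin 2) (ℤ√(-2))) = 1 := by
    rw [← Units.val_mul, ← map_mul]
    simp
  have hred : ∀ i k : Fin 2, red (((Ψ (-1) : GL (Fin 2) (ℤ√(-2))) :
      Matrix (Fin 2) (Fin 2) (ℤ√(-2))) i k)
      = ((-1 : GL (Fin 2) (ZMod 3)) : Matrix (Fin 2) (Fin 2) (ZMod 3)) i k := by
    intro i k
    rw [← Matrix.GeneralLinearGroup.map_apply, hlift]
  have h00 := hred 0 0
  have h11 := hred 1 1
  simp only [Units.val_neg, Units.val_one, Matrix.neg_apply, Matrix.one_apply_eq] at h00 h11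
  unfold trΨ
  rw [trace_of_invol96 _ hM h00 h11, map_neg, map_ofNat]

/-! ## 2. The element `-1 = [i, j]` of `Q8` -/

/-- `i ∈ Q8 ⊂ GL₂(𝔽₃)`. -/
def gI96 : GL (Fin 2) (ZMod 3) :=
  ⟨!![0, -1; 1, 0], !![0, 1; -1, 0], by decide, by decide⟩

/-- `j ∈ Q8 ⊂ GL₂(𝔽₃)`. -/
def gJ96 : GL (Fin 2) (ZMod 3) :=
  ⟨!![1, 1; 1, -1], !![-1, -1; -1, 1], by decide, by decide⟩

theorem gI_inQ8_96 : Matrix.GeneralLinearGroup.det gI96 = 1 ∧ gI96 ^ 4 = 1 := by
  constructor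
  · apply Units.ext
    simp only [Matrix.GeneralLinearGroup.val_det_apply, Units.val_one, gI96,
      Matrix.det_fin_two_of]
    decide
  · apply Units.ext
    decide

theorem gJ_inQ8_96 : Matrix.GeneralLinearGroup.det gJ96 = 1 ∧ gJ96 ^ 4 = 1 := by
  constructor
  · apply Units.ext
    simp only [Matrix.GeneralLinearGroup.val_det_apply, Units.val_one, gJ96,
      Matrix.det_fin_two_of]
    decide
  · apply Units.ext
    decide

theorem comm_gI_gJ_96 : ⁅gI96, gJ96⁆ = -1 := by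
  rw [commutatorElement_def]
  apply Units.ext
  decide

theorem inQ8_neg_one96 : InQ8 (-1 : GL (Fin 2) (ZMod 3)) := by
  constructor
  · apply Units.ext
    simp [Matrix.det_neg]
  · rw [Even.neg_one_pow (by decide)]

theorem ordQ8_neg_one96 : ordQ8 (-1 : GL (Fin 2) (ZMod 3)) = 1 := by
  unfold ordQ8
  rw [if_pos inQ8_neg_one96]

/-! ## 3. The field `E` -/

theorem subQ8_le_subSL96 (ρ : Γℚ →* GL (Fin 2) (ZMod 3)) : subQ8 ρ ≤ subSL ρ := by
  unfold subQ8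
  rw [Subgroup.closure_le]
  intro σ hσ
  show σ ∈ (Matrix.GeneralLinearGroup.det.comp ρ).ker
  rw [MonoidHom.mem_ker]
  exact hσ.1

theorem fieldF_le_fieldE96 (ρ : Γℚ →* GL (Fin 2) (ZMod 3)) : fieldF ρ ≤ fieldE ρ := by
  intro x hx
  unfold fieldE
  unfold fieldF at hx
  rw [IntermediateField.mem_fixedField_iff] at hx ⊢
  exact fun f hf => hx f (subQ8_le_subSL96 ρ hf)

/-- A number field with a square root of `-3` is totally complex. -/
theorem totallyComplex_of_sqrt96 (K : Type) [Field K] [NumberField K] (y : K)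
    (hy : y * y = -3) : CFT.TotallyComplex K := by
  intro w
  rw [← InfinitePlace.not_isReal_iff_isComplex]
  intro hw
  have hφ := InfinitePlace.isReal_iff.mp hw
  have h1 : hφ.embedding y * hφ.embedding y = -3 := by
    rw [← map_mul, hy, map_neg, map_ofNat]
  nlinarith [mul_self_nonneg (hφ.embedding y)]

/-- The elements of `ρ⁻¹(Q8)` fix `E`. -/
theorem mem_galOf_of_inQ8_96 (ρ : Γℚ →* GL (Fin 2) (ZMod 3)) (σ : Γℚ)
    (h : Matrix.GeneralLinearGroup.det (ρ σ) = 1 ∧ (ρ σ) ^ 4 = 1) :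
    σ ∈ CFT.galOf (algebraMap (fieldE ρ) Qb) := by
  intro x
  have hx : (x : Qb) ∈ fieldE ρ := x.2
  unfold fieldE at hx
  rw [IntermediateField.mem_fixedField_iff] at hx
  exact hx σ (Subgroup.subset_closure h)

/-- There is `σ` in the commutator subgroup of `G_E` with `ρ σ = -1`. -/
theorem exists_comm_neg_one96 (ρ : Γℚ →* GL (Fin 2) (ZMod 3)) (hsurj : Function.Surjective ρ) :
    ∃ σ : Γℚ, σ ∈ ⁅CFT.galOf (algebraMap (fieldE ρ) Qb), CFT.galOf (algebraMap (fieldE ρ) Qb)⁆ ∧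
      ρ σ = -1 := by
  obtain ⟨σi, hi⟩ := hsurj gI96
  obtain ⟨σj, hj⟩ := hsurj gJ96
  have hmi := mem_galOf_of_inQ8_96 ρ σi (by rw [hi]; exact gI_inQ8_96)
  have hmj := mem_galOf_of_inQ8_96 ρ σj (by rw [hj]; exact gJ_inQ8_96)
  refine ⟨⁅σi, σj⁆, Subgroup.commutator_mem_commutator hmi hmj, ?_⟩
  rw [map_commutatorElement, hi, hj, comm_gI_gJ_96]

/-- The kernel of `ρ` contains the fixing subgroup of a finite extension of `ℚ`. -/
theorem exists_fixing_le_ker96 (ρ : Γℚ →* GL (Fin 2) (ZMod 3)) (hcont : Continuous ρ) :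
    ∃ F : IntermediateField ℚ Qb, FiniteDimensional ℚ F ∧
      ∀ σ τ : Γℚ, (∀ x ∈ F, τ x = σ x) → ρ τ = ρ σ := by
  have hopen : IsOpen (ρ ⁻¹' {1}) := (isOpen_discrete _).preimage hcont
  have hmem : ρ ⁻¹' {1} ∈ nhds (1 : Γℚ) := hopen.mem_nhds (by simp)
  obtain ⟨F, hF, hFU⟩ := (krullTopology_mem_nhds_one_iff ℚ Qb _).mp hmem
  refine ⟨F, hF, fun σ τ h => ?_⟩
  have h1 : σ⁻¹ * τ ∈ F.fixingSubgroup := by
    rw [IntermediateField.mem_fixingSubgroup_iff]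
    intro x hx
    rw [AlgEquiv.mul_apply, h x hx]
    exact σ.symm_apply_apply x
  have h2 : ρ (σ⁻¹ * τ) = 1 := hFU h1
  rw [map_mul, map_inv, inv_mul_eq_one] at h2
  exact h2.symm

/-- The places of `K` over the prime numbers of a finite set form a finite set. -/
theorem finite_over_primes96 (K : Type) [Field K] [NumberField K] (S : Finset ℕ) :
    {w : HeightOneSpectrum (𝓞 K) | ∃ p ∈ S, p.Prime ∧ ((p : ℕ) : 𝓞 K) ∈ w.asIdeal}.Finite := by
  have hsub : {w : HeightOneSpectrum (𝓞 K) | ∃ p ∈ S, p.Prime ∧ ((p : ℕ) : 𝓞 K) ∈ w.asIdeal}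
      ⊆ ⋃ p ∈ (S.filter Nat.Prime : Finset ℕ),
        {w : HeightOneSpectrum (𝓞 K) | w.asIdeal ∣ Ideal.span {((p : ℕ) : 𝓞 K)}} := by
    rintro w ⟨p, hpS, hp, hpw⟩
    simp only [Set.mem_iUnion, Set.mem_ofPred_eq, Finset.mem_filter]
    exact ⟨p, ⟨hpS, hp⟩, Ideal.dvd_span_singleton.mpr hpw⟩
  refine Set.Finite.subset (Set.Finite.biUnion (Finset.finite_toSet _) ?_) hsub
  intro p hp
  have hp' : p.Prime := (Finset.mem_filter.mp hp).2
  apply Ideal.finite_factors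
  rw [Ne, Ideal.zero_eq_bot, Ideal.span_singleton_eq_bot]
  exact_mod_cast hp'.ne_zero

/-! ## 4. The leaf -/

/-- The Satake parameters with `a = -2`, `b = 1` are `(-1, -1)`. -/
theorem satake_neg_one96 {z₁ z₂ : ℂ} (h1 : z₁ + z₂ = -2) (h2 : z₁ * z₂ = 1) {n : ℕ}
    (hn : Odd n) : z₁ ^ n ≠ 1 ∧ z₂ ^ n ≠ 1 := by
  have e1 : (z₁ + 1) ^ 2 = 0 := by linear_combination z₁ * h1 - h2
  have e2 : (z₂ + 1) ^ 2 = 0 := by linear_combination z₂ * h1 - h2
  have f1 : z₁ = -1 := by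
    have := pow_eq_zero_iff (two_ne_zero) |>.mp e1
    linear_combination this
  have f2 : z₂ = -1 := by
    have := pow_eq_zero_iff (two_ne_zero) |>.mp e2
    linear_combination this
  rw [f1, f2, hn.neg_one_pow]
  norm_num

/-- The elements of `ρ⁻¹(SL₂)` fix `F`. -/
theorem mem_galOf_of_det_96 (ρ : Γℚ →* GL (Fin 2) (ZMod 3)) (σ : Γℚ)
    (h : Matrix.GeneralLinearGroup.det (ρ σ) = 1) :
    σ ∈ CFT.galOf (algebraMap (fieldF ρ) Qb) := by
  intro x
  have hx : (x : Qb) ∈ fieldF ρ := x.2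
  unfold fieldF at hx
  rw [IntermediateField.mem_fixedField_iff] at hx
  refine hx σ ?_
  show σ ∈ (Matrix.GeneralLinearGroup.det.comp ρ).ker
  rw [MonoidHom.mem_ker]
  exact h

/-- There is `σ` in the commutator subgroup of `G_F` with `ρ σ = -1`. -/
theorem exists_comm_neg_one_F96 (ρ : Γℚ →* GL (Fin 2) (ZMod 3))
    (hsurj : Function.Surjective ρ) :
    ∃ σ : Γℚ, σ ∈ ⁅CFT.galOf (algebraMap (fieldF ρ) Qb), CFT.galOf (algebraMap (fieldF ρ) Qb)⁆ ∧
      ρ σ = -1 := by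
  obtain ⟨σi, hi⟩ := hsurj gI96
  obtain ⟨σj, hj⟩ := hsurj gJ96
  have hmi := mem_galOf_of_det_96 ρ σi (by rw [hi]; exact gI_inQ8_96.1)
  have hmj := mem_galOf_of_det_96 ρ σj (by rw [hj]; exact gJ_inQ8_96.1)
  refine ⟨⁅σi, σj⁆, Subgroup.commutator_mem_commutator hmi hmj, ?_⟩
  rw [map_commutatorElement, hi, hj, comm_gI_gJ_96]

/-- **The good place** over a totally complex field `K ⊂ ℚ̄` whose absolute Galois group has an
element of its commutator subgroup with `ρ = -1`: a place `w₀` of prime absolute norm `p`,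
outside `S` and the places over a finite set `SΦ` of prime numbers, prime to `𝔑`, with ray class
of odd order modulo `𝔑`, and a Frobenius element `φ` at `p` with `ρ φ = -1`. -/
theorem exists_goodPlace96 (hC : CFT.OddRayChebC) (ρ : Γℚ →* GL (Fin 2) (ZMod 3))
    (hcont : Continuous ρ) (K : IntermediateField ℚ Qb) [NumberField K]
    (hTC : CFT.TotallyComplex K)
    (hσ : ∃ σ : Γℚ, σ ∈ ⁅CFT.galOf (algebraMap K Qb), CFT.galOf (algebraMap K Qb)⁆ ∧
      ρ σ = -1)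
    (𝔑 : Ideal (𝓞 K)) (h𝔑 : 𝔑 ≠ ⊥) (S : Finset (HeightOneSpectrum (𝓞 K))) (SΦ : Finset ℕ) :
    ∃ (w₀ : HeightOneSpectrum (𝓞 K)) (a₀ : 𝓞 K) (n : ℕ) (φ : Γℚ)
      (A : ValuationSubring Qb),
      w₀ ∉ S ∧ ¬ w₀.asIdeal ∣ 𝔑 ∧ (Ideal.absNorm w₀.asIdeal).Prime ∧
      Ideal.absNorm w₀.asIdeal ∉ SΦ ∧ Odd n ∧ Ideal.span {a₀} = w₀.asIdeal ^ n ∧ a₀ - 1 ∈ 𝔑 ∧
      ((Ideal.absNorm w₀.asIdeal : ℕ) : 𝓞 K) ∈ w₀.asIdeal ∧
      A.LiesOverPrime (Ideal.absNorm w₀.asIdeal) ∧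
      A.IsFrobeniusAt φ (Ideal.absNorm w₀.asIdeal) ∧ ρ φ = -1 := by
  obtain ⟨σ, hσc, hσ1⟩ := hσ
  obtain ⟨F, hF, hFρ⟩ := exists_fixing_le_ker96 ρ hcont
  classical
  obtain ⟨w₀, a₀, n, φ, hw₀S, hw₀𝔑, hprime, hn, hspan, ha₀, hfrob, hφσ⟩ :=
    hC K (algebraMap K Qb) hTC 𝔑 h𝔑 (S ∪ (finite_over_primes96 K SΦ).toFinset) F hF σ hσc
  simp only [Finset.mem_union, Set.Finite.mem_toFinset, Set.mem_ofPred_eq, not_or, not_exists,
    not_and] at hw₀S
  obtain ⟨hw₀S1, hw₀S2⟩ := hw₀S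
  have hpw : ((Ideal.absNorm w₀.asIdeal : ℕ) : 𝓞 K) ∈ w₀.asIdeal :=
    Ideal.absNorm_mem w₀.asIdeal
  have hpS : Ideal.absNorm w₀.asIdeal ∉ SΦ := fun h => hw₀S2 _ h hprime hpw
  obtain ⟨-, A, hA, hFrob⟩ := hfrob
  have hcard : Nat.card (𝓞 K ⧸ w₀.asIdeal) = Ideal.absNorm w₀.asIdeal := by
    rw [Ideal.absNorm_apply, Submodule.cardQuot_apply]
  rw [hcard] at hFrob
  have hlies : A.LiesOverPrime (Ideal.absNorm w₀.asIdeal) := by
    have := (hA _).mp hpw
    simpa [ValuationSubring.LiesOverPrime] using this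
  exact ⟨w₀, a₀, n, φ, A, hw₀S1, hw₀𝔑, hprime, hpS, hn, hspan, ha₀, hpw, hlies, hFrob,
    by rw [hFρ σ φ hφσ, hσ1]⟩

/-- `K ⊇ F` is totally complex (`SqrtC`). -/
theorem totallyComplex_of_le96 (ρ : Γℚ →* GL (Fin 2) (ZMod 3))
    (h3 : HasSqrtNegThree (fieldF ρ)) (K : IntermediateField ℚ Qb) [NumberField K]
    (hK : fieldF ρ ≤ K) : CFT.TotallyComplex K := by
  obtain ⟨x, hx⟩ := h3
  refine totallyComplex_of_sqrt96 K ⟨(x : Qb), hK x.2⟩ ?_
  apply Subtype.ext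
  have h3 := congrArg (fun t : fieldF ρ => (t : Qb)) hx
  push_cast at h3 ⊢
  exact h3

/-- **LEAF T7.15 `SeedEKC`** (VERBATIM, `LT/T7/EK.lean`) from the class field theory input
`OddRayChebC` and the leaf `SqrtC` (T7.09). -/
theorem seedEKC_of96 (hC : CFT.OddRayChebC) (hR : SqrtC) : SeedEKC := by
  intro ρ Ψ ι hyp nfE Φ hΦ 𝔑 h𝔑 S
  obtain ⟨SΦ, hSΦ⟩ := hΦ
  have hTC : CFT.TotallyComplex (fieldE ρ) :=
    totallyComplex_of_le96 ρ (hR ρ Ψ hyp) (fieldE ρ) (fieldF_le_fieldE96 ρ)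
  obtain ⟨w₀, a₀, n, φ, A, hw₀S, hw₀𝔑, hprime, hpS, hn, hspan, ha₀, hpw, hlies, hFrob, hρφ⟩ :=
    exists_goodPlace96 hC ρ hyp.cont (fieldE ρ) hTC (exists_comm_neg_one96 ρ hyp.surj)
      𝔑 h𝔑 S SΦ
  refine ⟨w₀, a₀, n, hw₀S, hw₀𝔑, hprime, hn.pos, hspan, ha₀, ?_⟩
  obtain ⟨hdata_a, hdata_b⟩ := hSΦ _ hprime hpS A hlies φ hFrob w₀ hpw
  rw [hρφ, ordQ8_neg_one96, pow_one, trPsi_neg_one96 Ψ ι hyp.lift] at hdata_a
  intro z₁ z₂ h1 h2
  exact satake_neg_one96 (h1.trans hdata_a) (h2.trans hdata_b) hn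

theorem ordSL_neg_one96 : ordSL (-1 : GL (Fin 2) (ZMod 3)) = 1 := by
  unfold ordSL
  rw [if_pos inQ8_neg_one96.1]

/-- **LEAF T7.16 `MidEKC`** (VERBATIM, `LT/T7/EK.lean`) from the class field theory input
`OddRayChebC` and the leaf `SqrtC` (T7.09). -/
theorem midEKC_of96 (hC : CFT.OddRayChebC) (hR : SqrtC) : MidEKC := by
  intro ρ Ψ ι hyp nfF π hπ 𝔑 h𝔑 S
  obtain ⟨SΦ, hSΦ⟩ := hπ
  have hTC : CFT.TotallyComplex (fieldF ρ) :=
    totallyComplex_of_le96 ρ (hR ρ Ψ hyp) (fieldF ρ) le_rfl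
  obtain ⟨w₀, a₀, n, φ, A, hw₀S, hw₀𝔑, hprime, hpS, hn, hspan, ha₀, hpw, hlies, hFrob, hρφ⟩ :=
    exists_goodPlace96 hC ρ hyp.cont (fieldF ρ) hTC (exists_comm_neg_one_F96 ρ hyp.surj)
      𝔑 h𝔑 S SΦ
  refine ⟨w₀, a₀, n, hw₀S, hw₀𝔑, hprime, hn.pos, hspan, ha₀, ?_⟩
  obtain ⟨hdata_a, hdata_b⟩ := hSΦ _ hprime hpS A hlies φ hFrob w₀ hpw
  rw [hρφ, ordSL_neg_one96, pow_one, ordQ8_neg_one96, pow_one, satakePow_one,
    trPsi_neg_one96 Ψ ι hyp.lift] at hdata_a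
  intro z₁ z₂ h1 h2
  exact satake_neg_one96 (h1.trans hdata_a) (h2.trans hdata_b) hn

end Fermat.Agent.LT.T7.H96

end
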